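import Fermat.Agent.S28.ModL
import Fermat.Agent.S28.Charts.Chart
import Fermat.Agent.S28.Charts.OKer
import Fermat.Agent.S28.Charts.Kernel

/-!
# S28, Part C: reduction homomorphisms on the chart algebras.  INTERFACE (statements frozen).

`chartAlg N ℓ S` is the integral closure of `ℤ_(ℓ)[S]` in the function field
`F = ℚ(j(q^d) : d ∣ N) ⊆ ℚ((q))`.  Each chart algebra carries a "reduction mod `ℓ` of the
`q`-expansion" ring homomorphism to `𝔽_ℓ((q))`; for the charts `S = {j}` and `S = {j⁻¹}` its kernel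
is `ℓ · chartAlg`.
-/

set_option autoImplicit false

noncomputable section

namespace Fermat.Agent.S28

open ModularCurve ModularCurve.IgusaScheme

section

variable {N : ℕ} [NeZero N] {ℓ : ℕ} [Fact ℓ.Prime] {n : ℕ} {u : LaurentSeries ℤ}
  {Ψ : Polynomial (Polynomial ↥(GaloisRep.ratLocalizedAt ℓ))}

/-- A chart algebra generated by `ℓ`-integral elements maps to `𝒪`. -/
def chartToO (hP : Pkg N ℓ n u Ψ) (S : Set ↥(modularFunctionFieldFull N))
    (hS : ∀ s ∈ S, IsO ℓ u ((s : ↥(modularFunctionFieldFull N)) : LaurentSeries ℚ)) :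
    ↥(chartAlg N ℓ S) →+* ↥(Osub ℓ u) where
  toFun x := ⟨((x : ↥(modularFunctionFieldFull N)) : LaurentSeries ℚ),
    hP.isO_of_mem_chartAlg S hS x.2⟩
  map_one' := rfl
  map_mul' _ _ := rfl
  map_zero' := rfl
  map_add' _ _ := rfl

/-- The reduction homomorphism of a chart algebra. -/
def chartRho (hP : Pkg N ℓ n u Ψ) (S : Set ↥(modularFunctionFieldFull N))
    (hS : ∀ s ∈ S, IsO ℓ u ((s : ↥(modularFunctionFieldFull N)) : LaurentSeries ℚ)) :
    ↥(chartAlg N ℓ S) →+* LaurentSeries (ZMod ℓ) :=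
  (redO ℓ u).comp (chartToO hP S hS)

theorem chartRho_spec (hP : Pkg N ℓ n u Ψ) (S : Set ↥(modularFunctionFieldFull N))
    (hS : ∀ s ∈ S, IsO ℓ u ((s : ↥(modularFunctionFieldFull N)) : LaurentSeries ℚ))
    (x : ↥(chartAlg N ℓ S)) :
    Red ℓ u ((x : ↥(modularFunctionFieldFull N)) : LaurentSeries ℚ) (chartRho hP S hS x) :=
  redO_spec ℓ u (chartToO hP S hS x)

/-- Kernel step: if `x` in the chart algebra reduces to `0` then `x/ℓ ∈ F` is `ℓ`-integral. -/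
theorem chart_ker_aux (hP : Pkg N ℓ n u Ψ) (x : ↥(modularFunctionFieldFull N))
    (hred : Red ℓ u (x : LaurentSeries ℚ) 0) :
    ∃ y : ↥(modularFunctionFieldFull N), IsO ℓ u (y : LaurentSeries ℚ) ∧
      (ℓ : ↥(modularFunctionFieldFull N)) * y = x := by
  obtain ⟨x', hx'O, hx'⟩ := hP.red_zero_imp hred
  have hℓ0 : (ℓ : ↥(modularFunctionFieldFull N)) ≠ 0 :=
    Nat.cast_ne_zero.mpr (Fact.out : ℓ.Prime).ne_zero
  have hℓL : (ℓ : LaurentSeries ℚ) ≠ 0 := by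
    rw [← map_natCast (HahnSeries.C : ℚ →+* LaurentSeries ℚ) ℓ]
    exact (map_ne_zero_iff _ HahnSeries.C_injective).mpr
      (Nat.cast_ne_zero.mpr (Fact.out : ℓ.Prime).ne_zero)
  refine ⟨(ℓ : ↥(modularFunctionFieldFull N))⁻¹ * x, ?_, mul_inv_cancel_left₀ hℓ0 x⟩
  have h2 : (((ℓ : ↥(modularFunctionFieldFull N))⁻¹ * x : ↥(modularFunctionFieldFull N)) :
      LaurentSeries ℚ) = x' := by
    have h3 : (((ℓ : ↥(modularFunctionFieldFull N))⁻¹ * x : ↥(modularFunctionFieldFull N)) :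
        LaurentSeries ℚ) = (ℓ : LaurentSeries ℚ)⁻¹ * (x : LaurentSeries ℚ) := by
      push_cast
      rfl
    rw [h3, hx', inv_mul_cancel_left₀ hℓL]
  rw [h2]
  exact hx'O

end

theorem exists_rho_fin (N : ℕ) [NeZero N] (ℓ : ℕ) [Fact ℓ.Prime] (hℓN : ¬ ℓ ∣ N) :
    ∃ ρ : ↥(chartAlgFin N ℓ) →+* LaurentSeries (ZMod ℓ),
      ∀ x : ↥(chartAlgFin N ℓ), ρ x = 0 →
        ∃ y : ↥(chartAlgFin N ℓ), x = (ℓ : ↥(chartAlgFin N ℓ)) * y := by
  obtain ⟨n, u, Ψ, h1, h2, h3, h4, h5⟩ := exists_package N ℓ hℓN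
  have hP : Pkg N ℓ n u Ψ := ⟨h1, h2, h3, h4, h5⟩
  have hS : ∀ s ∈ ({jFull N} : Set ↥(modularFunctionFieldFull N)),
      IsO ℓ u ((s : ↥(modularFunctionFieldFull N)) : LaurentSeries ℚ) := by
    intro s hs
    rw [Set.mem_singleton_iff] at hs
    subst hs
    exact isO_jq ℓ u
  refine ⟨chartRho hP _ hS, fun x hx => ?_⟩
  have hred : Red ℓ u ((x : ↥(modularFunctionFieldFull N)) : LaurentSeries ℚ) 0 := by
    have := chartRho_spec hP _ hS x
    rwa [hx] at this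
  obtain ⟨y, hyO, hyx⟩ := chart_ker_aux hP (x : ↥(modularFunctionFieldFull N)) hred
  have hmem : y ∈ chartAlgFin N ℓ := hP.mem_chartAlgFin_of_mul y hyO (by rw [hyx]; exact x.2)
  exact ⟨⟨y, hmem⟩, Subtype.ext hyx.symm⟩

theorem exists_rho_inf (N : ℕ) [NeZero N] (ℓ : ℕ) [Fact ℓ.Prime] (hℓN : ¬ ℓ ∣ N) :
    ∃ ρ : ↥(chartAlgInf N ℓ) →+* LaurentSeries (ZMod ℓ),
      ∀ x : ↥(chartAlgInf N ℓ), ρ x = 0 →
        ∃ y : ↥(chartAlgInf N ℓ), x = (ℓ : ↥(chartAlgInf N ℓ)) * y := by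
  obtain ⟨n, u, Ψ, h1, h2, h3, h4, h5⟩ := exists_package N ℓ hℓN
  have hP : Pkg N ℓ n u Ψ := ⟨h1, h2, h3, h4, h5⟩
  have hS : ∀ s ∈ ({(jFull N)⁻¹} : Set ↥(modularFunctionFieldFull N)),
      IsO ℓ u ((s : ↥(modularFunctionFieldFull N)) : LaurentSeries ℚ) := by
    intro s hs
    rw [Set.mem_singleton_iff] at hs
    subst hs
    exact isO_jq_inv ℓ u
  refine ⟨chartRho hP _ hS, fun x hx => ?_⟩
  have hred : Red ℓ u ((x : ↥(modularFunctionFieldFull N)) : LaurentSeries ℚ) 0 := by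
    have := chartRho_spec hP _ hS x
    rwa [hx] at this
  obtain ⟨y, hyO, hyx⟩ := chart_ker_aux hP (x : ↥(modularFunctionFieldFull N)) hred
  have hmem : y ∈ chartAlgInf N ℓ := hP.mem_chartAlgInf_of_mul y hyO (by rw [hyx]; exact x.2)
  exact ⟨⟨y, hmem⟩, Subtype.ext hyx.symm⟩

theorem exists_rho_mid (N : ℕ) [NeZero N] (ℓ : ℕ) [Fact ℓ.Prime] (hℓN : ¬ ℓ ∣ N) :
    Nonempty (↥(chartAlgMid N ℓ) →+* LaurentSeries (ZMod ℓ)) := by
  obtain ⟨n, u, Ψ, h1, h2, h3, h4, h5⟩ := exists_package N ℓ hℓN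
  have hP : Pkg N ℓ n u Ψ := ⟨h1, h2, h3, h4, h5⟩
  have hS : ∀ s ∈ ({jFull N, (jFull N)⁻¹} : Set ↥(modularFunctionFieldFull N)),
      IsO ℓ u ((s : ↥(modularFunctionFieldFull N)) : LaurentSeries ℚ) := by
    intro s hs
    rcases hs with hs | hs
    · subst hs
      exact isO_jq ℓ u
    · rw [Set.mem_singleton_iff] at hs
      subst hs
      exact isO_jq_inv ℓ u
  exact ⟨chartRho hP _ hS⟩

end Fermat.Agent.S28
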