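import Fermat.Agent.S28.Zl

/-!
# S28, Part C4: from a reduction homomorphism to integrality of `A ⊗ K`.  INTERFACE (frozen).

If `ρ : A →+* 𝔽_ℓ((q))` is a ring homomorphism from a `ℤ_(ℓ)`-algebra `A` with kernel `ℓ A`, then for
every field `K` of characteristic `ℓ` (with any `ℤ_(ℓ)`-algebra structure) the ring `A ⊗_{ℤ_(ℓ)} K`
embeds into `K((q))` (choose a basis of `K` over `𝔽_ℓ` and compare coefficients), so is a domain.
-/

set_option autoImplicit false

noncomputable section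

namespace Fermat.Agent.S28

open ModularCurve
open scoped TensorProduct

section Aux

variable (ℓ : ℕ) [Fact ℓ.Prime] (A : Type) [CommRing A]
    [Algebra ↥(GaloisRep.ratLocalizedAt ℓ) A] (K : Type) [Field K] [CharP K ℓ]
    [Algebra ↥(GaloisRep.ratLocalizedAt ℓ) K]
    (ρ : A →+* LaurentSeries (ZMod ℓ))

/-- The structure map `ℤ_(ℓ) → K` factors through the residue map. -/
private theorem tensor_aux_algebraMap_eq :
    algebraMap ↥(GaloisRep.ratLocalizedAt ℓ) K =
      (ZMod.castHom (dvd_refl ℓ) K).comp (zlRes ℓ) :=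
  zl_ringHom_ext ℓ _ _

/-- `A → K((q))`, as a `ℤ_(ℓ)`-algebra map. -/
private def tensor_aux_f1 : A →ₐ[↥(GaloisRep.ratLocalizedAt ℓ)] LaurentSeries K :=
  { (coeffMap (ZMod.castHom (dvd_refl ℓ) K)).comp ρ with
    commutes' := fun r => RingHom.congr_fun
      (zl_ringHom_ext ℓ
        (((coeffMap (ZMod.castHom (dvd_refl ℓ) K)).comp ρ).comp
          (algebraMap ↥(GaloisRep.ratLocalizedAt ℓ) A))
        (algebraMap ↥(GaloisRep.ratLocalizedAt ℓ) (LaurentSeries K))) r }

/-- `K → K((q))`, as a `ℤ_(ℓ)`-algebra map. -/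
private def tensor_aux_f2 : K →ₐ[↥(GaloisRep.ratLocalizedAt ℓ)] LaurentSeries K :=
  { (HahnSeries.C : K →+* LaurentSeries K) with
    commutes' := fun r => RingHom.congr_fun
      (zl_ringHom_ext ℓ
        ((HahnSeries.C : K →+* LaurentSeries K).comp
          (algebraMap ↥(GaloisRep.ratLocalizedAt ℓ) K))
        (algebraMap ↥(GaloisRep.ratLocalizedAt ℓ) (LaurentSeries K))) r }

/-- The comparison map `A ⊗ K → K((q))`. -/
private def tensor_aux_Theta :
    A ⊗[↥(GaloisRep.ratLocalizedAt ℓ)] K →ₐ[↥(GaloisRep.ratLocalizedAt ℓ)] LaurentSeries K :=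
  Algebra.TensorProduct.productMap (tensor_aux_f1 ℓ A K ρ) (tensor_aux_f2 ℓ K)

private theorem tensor_aux_Theta_tmul (a : A) (c : K) :
    tensor_aux_Theta ℓ A K ρ (a ⊗ₜ c) =
      coeffMap (ZMod.castHom (dvd_refl ℓ) K) (ρ a) * HahnSeries.C c := by
  unfold tensor_aux_Theta
  rw [Algebra.TensorProduct.productMap_apply_tmul]
  simp [tensor_aux_f1, tensor_aux_f2]

include ρ in
private theorem tensor_aux_nontrivial :
    Nontrivial (A ⊗[↥(GaloisRep.ratLocalizedAt ℓ)] K) := by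
  refine ⟨⟨0, 1, fun h => ?_⟩⟩
  have h1 := congrArg (tensor_aux_Theta ℓ A K ρ) h
  rw [map_zero, map_one] at h1
  exact zero_ne_one h1

private theorem tensor_aux_Theta_injective
    (hρ : ∀ x : A, ρ x = 0 → ∃ y : A, x = (ℓ : A) * y) :
    Function.Injective (tensor_aux_Theta ℓ A K ρ) := by
  classical
  let _ : Algebra (ZMod ℓ) K := ZMod.algebra K ℓ
  let e := Module.Basis.ofVectorSpace (ZMod ℓ) K
  let Φ : (Module.Basis.ofVectorSpaceIndex (ZMod ℓ) K →₀ A) →ₗ[↥(GaloisRep.ratLocalizedAt ℓ)]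
      A ⊗[↥(GaloisRep.ratLocalizedAt ℓ)] K :=
    Finsupp.lsum ℕ (fun b => (TensorProduct.mk ↥(GaloisRep.ratLocalizedAt ℓ) A K).flip (e b))
  have hsmul : ∀ (r : ↥(GaloisRep.ratLocalizedAt ℓ)) (x : K), r • x = (zlRes ℓ r) • x := by
    intro r x
    rw [Algebra.smul_def, Algebra.smul_def, tensor_aux_algebraMap_eq ℓ K]
    rfl
  have hsurj : ∀ t : A ⊗[↥(GaloisRep.ratLocalizedAt ℓ)] K, t ∈ LinearMap.range Φ := by
    intro t
    induction t using TensorProduct.induction_on with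
    | zero => exact zero_mem _
    | tmul a c =>
      have hc : c ∈ Submodule.span (ZMod ℓ) (Set.range e) := e.mem_span c
      induction hc using Submodule.span_induction with
      | mem x hx =>
        obtain ⟨b, rfl⟩ := hx
        exact ⟨Finsupp.single b a, by simp [Φ]⟩
      | zero => rw [TensorProduct.tmul_zero]; exact zero_mem _
      | add x y _ _ hx hy => rw [TensorProduct.tmul_add]; exact add_mem hx hy
      | smul s x _ hx =>
        obtain ⟨r, rfl⟩ := zlRes_surjective ℓ s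
        rw [← hsmul, TensorProduct.tmul_smul]
        exact Submodule.smul_mem _ _ hx
    | add x y hx hy => exact add_mem hx hy
  rw [injective_iff_map_eq_zero]
  intro t ht
  obtain ⟨a, rfl⟩ := hsurj t
  have hΦ : Φ a = ∑ b ∈ a.support, a b ⊗ₜ[↥(GaloisRep.ratLocalizedAt ℓ)] e b := rfl
  rw [hΦ] at ht ⊢
  rw [map_sum] at ht
  have hcoef : ∀ m : ℤ, ∑ b ∈ a.support, ((ρ (a b)).coeff m) • e b = 0 := by
    intro m
    have h1 := congrArg (fun x : LaurentSeries K => x.coeff m) ht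
    simp only [HahnSeries.coeff_sum, HahnSeries.coeff_zero] at h1
    rw [← h1]
    refine Finset.sum_congr rfl fun b _ => ?_
    rw [tensor_aux_Theta_tmul, HahnSeries.C_apply, HahnSeries.coeff_mul_single_zero,
      coeffMap_coeff, Algebra.smul_def]
    rfl
  have hzero : ∀ b ∈ a.support, ρ (a b) = 0 := by
    intro b hb
    ext m
    exact linearIndependent_iff'.mp e.linearIndependent a.support
      (fun b => (ρ (a b)).coeff m) (hcoef m) b hb
  refine Finset.sum_eq_zero fun b hb => ?_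
  obtain ⟨y, hy⟩ := hρ (a b) (hzero b hb)
  have h2 : (ℓ : A) * y = (ℓ : ↥(GaloisRep.ratLocalizedAt ℓ)) • y := by
    rw [Algebra.smul_def, map_natCast]
  rw [hy, h2, TensorProduct.smul_tmul, Algebra.smul_def, map_natCast, CharP.cast_eq_zero,
    zero_mul, TensorProduct.tmul_zero]

end Aux

theorem isDomain_tensor_of_rho (ℓ : ℕ) [Fact ℓ.Prime] (A : Type) [CommRing A]
    [Algebra ↥(GaloisRep.ratLocalizedAt ℓ) A] (K : Type) [Field K] [CharP K ℓ]
    [Algebra ↥(GaloisRep.ratLocalizedAt ℓ) K]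
    (ρ : A →+* LaurentSeries (ZMod ℓ))
    (hρ : ∀ x : A, ρ x = 0 → ∃ y : A, x = (ℓ : A) * y) :
    IsDomain (A ⊗[↥(GaloisRep.ratLocalizedAt ℓ)] K) :=
  Function.Injective.isDomain (tensor_aux_Theta ℓ A K ρ)
    (tensor_aux_Theta_injective ℓ A K ρ hρ)

theorem nontrivial_tensor_of_rho (ℓ : ℕ) [Fact ℓ.Prime] (A : Type) [CommRing A]
    [Algebra ↥(GaloisRep.ratLocalizedAt ℓ) A] (K : Type) [Field K] [CharP K ℓ]
    [Algebra ↥(GaloisRep.ratLocalizedAt ℓ) K]
    (ρ : A →+* LaurentSeries (ZMod ℓ)) :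
    Nontrivial (A ⊗[↥(GaloisRep.ratLocalizedAt ℓ)] K) :=
  tensor_aux_nontrivial ℓ A K ρ

end Fermat.Agent.S28
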