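import Fermat.Agent.S28.Scheme
import Fermat.Agent.S28.Tensor
import Fermat.Agent.S28.Charts

/-!
# S28: assembly.  `Fermat.Agent.S28.final` is the frozen statement of S28.
-/

set_option autoImplicit false
open AlgebraicGeometry CategoryTheory CategoryTheory.Limits ModularCurve ModularCurve.IgusaScheme
noncomputable section

namespace Fermat.Agent.S28

set_option maxHeartbeats 4000000 in
set_option synthInstance.maxHeartbeats 400000 in
theorem final
    (N : ℕ) [NeZero N] (ℓ : ℕ) [Fact ℓ.Prime] (hℓN : ¬ ℓ ∣ N)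
    (K : Type) [Field K] [CharP K ℓ] [Algebra ↥(GaloisRep.ratLocalizedAt ℓ) K] :
    IsIntegral ↑(pullback (igusaTo N ℓ)
      (Spec.map (CommRingCat.ofHom (algebraMap ↥(GaloisRep.ratLocalizedAt ℓ) K)))) := by
  obtain ⟨ρF, hF⟩ := exists_rho_fin N ℓ hℓN
  obtain ⟨ρI, hI⟩ := exists_rho_inf N ℓ hℓN
  obtain ⟨ρM⟩ := exists_rho_mid N ℓ hℓN
  exact isIntegral_pullback_of_charts N ℓ K
    (isDomain_tensor_of_rho ℓ _ K ρF hF) (isDomain_tensor_of_rho ℓ _ K ρI hI)
    (nontrivial_tensor_of_rho ℓ _ K ρM)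

end Fermat.Agent.S28
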