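import Fermat.Agent.S28.Defs
import Fermat.Agent.S28.Ana.ArithLe
import Fermat.Agent.S28.Ana.GLead
import Fermat.Agent.S28.Ana.CharPolyW
import Fermat.Agent.S28.Ana.Lagrange

/-!
# S28, Part A (analytic): the eta-quotient unit and its conjugates.  INTERFACE (statement frozen).
Owner of the proof: helper2 (sub-architect of Part A).

`Qb = AlgebraicClosure ℚ`.  `W ⊆ Qb` is any subring containing all algebraic integers in which
`N` is invertible.  The package consists of
* `u : LaurentSeries ℤ`, the `q`-expansion of the eta-quotient `U(τ) = ∏_{d ∣ N} Δ(dτ)^{r_d}`,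
  `r_d = φ(N)[d = 1] - d μ(N/d)`;
* the finite index set `ι = SL₂(ℤ)/Γ₀(N)` with the identity coset `i₀`, and for `i : ι` the
  expansion `G i ∈ W((t))` of the conjugate `U ∘ g_i⁻¹` in `t = q^{1/N}`;
* the characteristic polynomial `Ψ ∈ W[Y][X]` (`Y = j`) of `U` over `ℚ̄(j)`.
-/

set_option autoImplicit false

noncomputable section

namespace Fermat.Agent.S28

open ModularCurve

theorem exists_analytic_package (N : ℕ) [NeZero N] (W : Subring (AlgebraicClosure ℚ))
    (hWint : ∀ x : AlgebraicClosure ℚ, IsIntegral ℤ x → x ∈ W)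
    (hWN : ∃ y ∈ W, y * (N : AlgebraicClosure ℚ) = 1) :
    ∃ (u : LaurentSeries ℤ) (ι : Type) (_ : Fintype ι) (i₀ : ι) (G : ι → LaurentSeries ↥W)
      (Ψ : Polynomial (Polynomial ↥W)),
      -- (a) `u` has a unit coefficient in some degree `≤ 0`
      (∃ m : ℤ, m ≤ 0 ∧ IsUnit (u.coeff m)) ∧
      -- (b) the expansion of the identity coset is `u(t^N)`
      G i₀ = qExpand ↥W N (coeffMap (Int.castRingHom ↥W) u) ∧
      -- (c) the other conjugates vanish at the cusp `∞` and have a unit coefficient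
      (∀ i, i ≠ i₀ → (∀ m : ℤ, m ≤ 0 → (G i).coeff m = 0) ∧ ∃ m : ℤ, IsUnit ((G i).coeff m)) ∧
      -- (d) `Ψ(j(t^N), X) = ∏ᵢ (X - G i)`
      Ψ.Monic ∧
      Ψ.map (Polynomial.eval₂RingHom (HahnSeries.C : ↥W →+* LaurentSeries ↥W)
          (qExpand ↥W N (jqModC ↥W))) = ∏ i, (Polynomial.X - Polynomial.C (G i)) ∧
      -- (clause (e) of the first draft was removed: it is not needed)
      -- (f) Lagrange interpolation: `j(q^d) · Ψ'(j, u) = Q_d(j, u)`
      (∀ (d : ℕ) [NeZero d], d ∣ N → ∃ Q : Polynomial (Polynomial (AlgebraicClosure ℚ)),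
        qExpand (AlgebraicClosure ℚ) d (jqModC (AlgebraicClosure ℚ)) *
          ev2 (jqModC (AlgebraicClosure ℚ)) (coeffMap (Int.castRingHom (AlgebraicClosure ℚ)) u)
            (Polynomial.derivative (Ψ.map (Polynomial.mapRingHom W.subtype))) =
        ev2 (jqModC (AlgebraicClosure ℚ)) (coeffMap (Int.castRingHom (AlgebraicClosure ℚ)) u) Q) := by
  classical
  have hW : IsGoodRing N W := ⟨hWint, hWN⟩
  obtain ⟨Ψ, hΨm, hΨ⟩ := exists_PsiW hW
  refine ⟨uSeries N, Fermat.Agent.S24.Cosets N, cosetsFintype N, coset0 N,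
    fun i => GSeries hW (Quotient.out i)⁻¹, Ψ, ?_, ?_, ?_, hΨm, hΨ, ?_⟩
  · -- (a)
    refine ⟨_, sum_mul_rExp_le N, ?_⟩
    rw [(uSeries_leadsWith N).1]
    exact isUnit_one
  · -- (b)
    exact GSeries_of_mem hW _ (inv_mem (out_coset0_mem N))
  · -- (c)
    intro i hi
    refine GSeries_of_not_mem hW _ (fun h => out_not_mem_of_ne N i hi ?_)
    have h2 := inv_mem h
    rwa [inv_inv] at h2
  · -- (f)
    intro d _ hd
    exact exists_lagrange hW Ψ hΨ d hd

end Fermat.Agent.S28
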