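import Fermat.Agent.S28.ChartsAlt.ChartO
import Fermat.Agent.S28.ChartsAlt.K8
import Fermat.Agent.S28.ChartsAlt.Transfer

/-!
# S28, Part C, alternative route (namespace `Fermat.Agent.S28.CAlt`; owner: helper2).

Same statements as `Fermat/Agent/S28/Charts.lean`.  Here the reduction homomorphism is canonical:
the localisation `bigO ℓ ⊆ ℚ((q))` of `ℤ_(ℓ)((q))` at the prime `(ℓ)` is a discrete valuation
ring with residue map `rhoBig ℓ : bigO ℓ →+* 𝔽_ℓ((q))`; it is integrally closed in its fraction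
field, which contains the function field `F`, so every chart algebra lies in `bigO ℓ` and
`ρ_S := rhoBig|_{chartAlg S}`.  The kernel statement for the charts `{j}`, `{j⁻¹}` is the
`ℓ`-saturation of the integral closures (`Pkg.isIntegral_fin/inf`), which uses `exists_package`.
-/

set_option autoImplicit false

noncomputable section

namespace Fermat.Agent.S28.CAlt

open ModularCurve ModularCurve.IgusaScheme

/-- The kernel statement, for a chart whose membership is integrality over a subring `R` of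
`ℚ((q))` which is `ℓ`-saturated in `F ∩ bigO`. -/
theorem ker_rhoChart (N : ℕ) [NeZero N] (ℓ : ℕ) [Fact ℓ.Prime]
    (S : Set ↥(modularFunctionFieldFull N))
    (hS : ∀ s ∈ S, IsBigO ℓ ((s : ↥(modularFunctionFieldFull N)) : LaurentSeries ℚ))
    (R : Subring (LaurentSeries ℚ))
    (hmem : ∀ x : ↥(modularFunctionFieldFull N),
      x ∈ chartAlg N ℓ S ↔ IsIntegral R (x : LaurentSeries ℚ))
    (hsat : ∀ y : LaurentSeries ℚ, y ∈ modularFunctionFieldFull N → IsBigO ℓ y →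
      IsIntegral R (((ℓ : ℕ) : LaurentSeries ℚ) * y) → IsIntegral R y)
    (x : ↥(chartAlg N ℓ S)) (hx : rhoChart ℓ N S hS x = 0) :
    ∃ y : ↥(chartAlg N ℓ S), x = (ℓ : ↥(chartAlg N ℓ S)) * y := by
  rw [rhoChart_apply] at hx
  obtain ⟨y, hy⟩ := rhoBig_eq_zero ℓ _ hx
  have hℓ0 : ((ℓ : ℕ) : LaurentSeries ℚ) ≠ 0 := natCast_ell_LQ_ne_zero ℓ
  -- `y = x / ℓ` lies in the function field
  set y' : ↥(modularFunctionFieldFull N) :=
    ((ℓ : ℕ) : ↥(modularFunctionFieldFull N))⁻¹ * (x : ↥(modularFunctionFieldFull N)) with hy'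
  have hcoe : ((y' : ↥(modularFunctionFieldFull N)) : LaurentSeries ℚ) = (y : LaurentSeries ℚ) := by
    have h1 : ((y' : ↥(modularFunctionFieldFull N)) : LaurentSeries ℚ) =
        ((ℓ : ℕ) : LaurentSeries ℚ)⁻¹ *
          (((x : ↥(modularFunctionFieldFull N)) : ↥(modularFunctionFieldFull N)) :
            LaurentSeries ℚ) := by
      rw [hy']
      push_cast
      rfl
    rw [h1]
    have h2 : (((x : ↥(modularFunctionFieldFull N)) : ↥(modularFunctionFieldFull N)) :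
        LaurentSeries ℚ) = ((ℓ : ℕ) : LaurentSeries ℚ) * (y : LaurentSeries ℚ) := hy
    rw [h2, ← mul_assoc, inv_mul_cancel₀ hℓ0, one_mul]
  have hyO : IsBigO ℓ ((y' : ↥(modularFunctionFieldFull N)) : LaurentSeries ℚ) := by
    rw [hcoe]
    exact y.2
  have hmul : ((ℓ : ℕ) : LaurentSeries ℚ) *
      ((y' : ↥(modularFunctionFieldFull N)) : LaurentSeries ℚ) =
      (((x : ↥(modularFunctionFieldFull N)) : ↥(modularFunctionFieldFull N)) :
        LaurentSeries ℚ) := by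
    rw [hcoe]
    exact hy.symm
  have hint : IsIntegral R ((y' : ↥(modularFunctionFieldFull N)) : LaurentSeries ℚ) := by
    refine hsat _ y'.2 hyO ?_
    rw [hmul]
    exact (hmem _).mp x.2
  have hymem : y' ∈ chartAlg N ℓ S := (hmem y').mpr hint
  refine ⟨⟨y', hymem⟩, ?_⟩
  apply Subtype.ext
  apply Subtype.ext
  rw [← hmul]
  push_cast
  rfl

theorem exists_rho_fin (N : ℕ) [NeZero N] (ℓ : ℕ) [Fact ℓ.Prime] (hℓN : ¬ ℓ ∣ N) :
    ∃ ρ : ↥(chartAlgFin N ℓ) →+* LaurentSeries (ZMod ℓ),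
      ∀ x : ↥(chartAlgFin N ℓ), ρ x = 0 →
        ∃ y : ↥(chartAlgFin N ℓ), x = (ℓ : ↥(chartAlgFin N ℓ)) * y := by
  obtain ⟨n, u, Ψ, h⟩ := exists_pkg N ℓ hℓN
  exact ⟨rhoChart ℓ N _ (hS_fin ℓ N), fun x hx =>
    ker_rhoChart N ℓ _ (hS_fin ℓ N) (thetaJ ℓ).range (mem_chartAlgFin_iff ℓ N)
      (fun y hy hO hint => h.isIntegral_fin hy hO hint) x hx⟩

theorem exists_rho_inf (N : ℕ) [NeZero N] (ℓ : ℕ) [Fact ℓ.Prime] (hℓN : ¬ ℓ ∣ N) :
    ∃ ρ : ↥(chartAlgInf N ℓ) →+* LaurentSeries (ZMod ℓ),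
      ∀ x : ↥(chartAlgInf N ℓ), ρ x = 0 →
        ∃ y : ↥(chartAlgInf N ℓ), x = (ℓ : ↥(chartAlgInf N ℓ)) * y := by
  obtain ⟨n, u, Ψ, h⟩ := exists_pkg N ℓ hℓN
  exact ⟨rhoChart ℓ N _ (hS_inf ℓ N), fun x hx =>
    ker_rhoChart N ℓ _ (hS_inf ℓ N) (thetaJinv ℓ).range (mem_chartAlgInf_iff ℓ N)
      (fun y hy hO hint => h.isIntegral_inf hy hO hint) x hx⟩

theorem exists_rho_mid (N : ℕ) [NeZero N] (ℓ : ℕ) [Fact ℓ.Prime] (_hℓN : ¬ ℓ ∣ N) :
    Nonempty (↥(chartAlgMid N ℓ) →+* LaurentSeries (ZMod ℓ)) :=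
  ⟨rhoChart ℓ N _ (hS_mid ℓ N)⟩

end Fermat.Agent.S28.CAlt
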