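import Mathlib
import Fermat.Prelude.Def_ModularCurve_IgusaScheme
import Fermat.Prelude.Def_ModularCurve_X0ModL

/-!
# S28 (Igusa integrality): common definitions (owner: helper19).  Complete, no `sorry`.
Do not edit without asking helper19.

`ev2 j u c` is the value `c(j, u)` of a two-variable polynomial `c ∈ S[Y][X]` (outer variable `X`,
inner variable `Y`) at Laurent series `Y = j`, `X = u` over `S`.
-/

set_option autoImplicit false

noncomputable section

namespace Fermat.Agent.S28

open ModularCurve

/-- The ring hom `S[Y][X] → S((q))`, `Y ↦ j`, `X ↦ u`. -/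
def ev2Hom {S : Type*} [CommRing S] (j u : LaurentSeries S) :
    Polynomial (Polynomial S) →+* LaurentSeries S :=
  Polynomial.eval₂RingHom (Polynomial.eval₂RingHom (HahnSeries.C : S →+* LaurentSeries S) j) u

/-- `ev2 j u c = c(j, u)` for `c ∈ S[Y][X]` (outer variable `X ↦ u`, inner variable `Y ↦ j`). -/
def ev2 {S : Type*} [CommRing S] (j u : LaurentSeries S) (c : Polynomial (Polynomial S)) :
    LaurentSeries S :=
  ev2Hom j u c

section

variable {S : Type*} [CommRing S] (j u : LaurentSeries S)

theorem ev2_def (c : Polynomial (Polynomial S)) :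
    ev2 j u c = Polynomial.eval₂
      (Polynomial.eval₂RingHom (HahnSeries.C : S →+* LaurentSeries S) j) u c := rfl

@[simp] theorem ev2_zero : ev2 j u 0 = 0 := map_zero (ev2Hom j u)
@[simp] theorem ev2_one : ev2 j u 1 = 1 := map_one (ev2Hom j u)
theorem ev2_add (c c' : Polynomial (Polynomial S)) : ev2 j u (c + c') = ev2 j u c + ev2 j u c' :=
  map_add (ev2Hom j u) c c'
theorem ev2_mul (c c' : Polynomial (Polynomial S)) : ev2 j u (c * c') = ev2 j u c * ev2 j u c' :=
  map_mul (ev2Hom j u) c c'
theorem ev2_sub (c c' : Polynomial (Polynomial S)) : ev2 j u (c - c') = ev2 j u c - ev2 j u c' :=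
  map_sub (ev2Hom j u) c c'
theorem ev2_neg (c : Polynomial (Polynomial S)) : ev2 j u (-c) = -ev2 j u c :=
  map_neg (ev2Hom j u) c
theorem ev2_pow (c : Polynomial (Polynomial S)) (k : ℕ) : ev2 j u (c ^ k) = ev2 j u c ^ k :=
  map_pow (ev2Hom j u) c k
theorem ev2_sum {ι : Type*} (s : Finset ι) (f : ι → Polynomial (Polynomial S)) :
    ev2 j u (∑ i ∈ s, f i) = ∑ i ∈ s, ev2 j u (f i) :=
  map_sum (ev2Hom j u) f s
theorem ev2_prod {ι : Type*} (s : Finset ι) (f : ι → Polynomial (Polynomial S)) :
    ev2 j u (∏ i ∈ s, f i) = ∏ i ∈ s, ev2 j u (f i) :=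
  map_prod (ev2Hom j u) f s

/-- `X ↦ u`. -/
@[simp] theorem ev2_X : ev2 j u Polynomial.X = u := by
  simp [ev2, ev2Hom]

/-- A polynomial in `Y` alone: `C b ↦ b(j)`. -/
theorem ev2_C (b : Polynomial S) :
    ev2 j u (Polynomial.C b) = Polynomial.eval₂ (HahnSeries.C : S →+* LaurentSeries S) j b := by
  simp [ev2, ev2Hom]

/-- `Y ↦ j`. -/
@[simp] theorem ev2_C_X : ev2 j u (Polynomial.C Polynomial.X) = j := by
  simp [ev2_C]

/-- constants. -/
@[simp] theorem ev2_C_C (s : S) : ev2 j u (Polynomial.C (Polynomial.C s)) = HahnSeries.C s := by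
  simp [ev2_C]

/-- Expansion of `ev2` as a sum over the coefficients in `X`. -/
theorem ev2_eq_sum (c : Polynomial (Polynomial S)) :
    ev2 j u c = c.sum fun k b =>
      Polynomial.eval₂ (HahnSeries.C : S →+* LaurentSeries S) j b * u ^ k := by
  rw [ev2_def, Polynomial.eval₂_eq_sum]
  rfl

end

/-- Compatibility of `ev2` with a change of coefficient ring. -/
theorem coeffMap_ev2 {S T : Type*} [CommRing S] [CommRing T] (g : S →+* T)
    (j u : LaurentSeries S) (c : Polynomial (Polynomial S)) :
    coeffMap g (ev2 j u c) =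
      ev2 (coeffMap g j) (coeffMap g u) (c.map (Polynomial.mapRingHom g)) := by
  have h : ((coeffMap g).comp (ev2Hom j u)) =
      (ev2Hom (coeffMap g j) (coeffMap g u)).comp
        (Polynomial.mapRingHom (Polynomial.mapRingHom g)) := by
    apply Polynomial.ringHom_ext
    · intro b
      have h2 : ((coeffMap g).comp (ev2Hom j u)).comp Polynomial.C =
          ((ev2Hom (coeffMap g j) (coeffMap g u)).comp
            (Polynomial.mapRingHom (Polynomial.mapRingHom g))).comp Polynomial.C := by
        apply Polynomial.ringHom_ext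
        · intro s
          simp [ev2Hom, HahnSeries.C_apply]
        · simp [ev2Hom]
      exact congrArg (fun f => f b) h2
    · simp [ev2Hom]
  exact congrArg (fun f => f c) h

/-- Compatibility of `ev2` with the substitution `q ↦ q^N`. -/
theorem qExpand_ev2 {S : Type*} [CommRing S] (N : ℕ) [NeZero N]
    (j u : LaurentSeries S) (c : Polynomial (Polynomial S)) :
    qExpand S N (ev2 j u c) = ev2 (qExpand S N j) (qExpand S N u) c := by
  have h : ((qExpand S N).comp (ev2Hom j u)) = ev2Hom (qExpand S N j) (qExpand S N u) := by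
    apply Polynomial.ringHom_ext
    · intro b
      have h2 : ((qExpand S N).comp (ev2Hom j u)).comp Polynomial.C =
          (ev2Hom (qExpand S N j) (qExpand S N u)).comp Polynomial.C := by
        apply Polynomial.ringHom_ext
        · intro s
          simp [ev2Hom]
        · simp [ev2Hom]
      exact congrArg (fun f => f b) h2
    · simp [ev2Hom]
  exact congrArg (fun f => f c) h

end Fermat.Agent.S28
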