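import Fermat.Agent.S28.Defs

/-!
# S28: the ring `ℤ_(ℓ) = GaloisRep.ratLocalizedAt ℓ ⊆ ℚ`.  INTERFACE (statements frozen).

`GaloisRep.ratLocalizedAt ℓ : Subring ℚ` is `{x : ℚ | x.den.Coprime ℓ}`.
-/

set_option autoImplicit false

noncomputable section

namespace Fermat.Agent.S28

open ModularCurve

section

variable (ℓ : ℕ) [Fact ℓ.Prime]

/-- Membership in `ℤ_(ℓ)`. -/
theorem mem_zl_iff (x : ℚ) : x ∈ GaloisRep.ratLocalizedAt ℓ ↔ ¬ ℓ ∣ x.den := by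
  have hp : ℓ.Prime := Fact.out
  show x.den.Coprime ℓ ↔ _
  rw [Nat.coprime_comm, hp.coprime_iff_not_dvd]

private theorem zl_aux_inv_mem {m : ℕ} (hm : ¬ ℓ ∣ m) :
    ((m : ℚ)⁻¹) ∈ GaloisRep.ratLocalizedAt ℓ := by
  have hp : ℓ.Prime := Fact.out
  rw [mem_zl_iff, Rat.inv_natCast_den]
  split_ifs with h
  · exact hp.not_dvd_one
  · exact hm

/-- Integers prime to `ℓ` are units of `ℤ_(ℓ)`. -/
theorem zl_isUnit_natCast {m : ℕ} (hm : ¬ ℓ ∣ m) : IsUnit ((m : ℕ) : ↥(GaloisRep.ratLocalizedAt ℓ)) := by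
  have hm0 : (m : ℚ) ≠ 0 := by
    intro h
    apply hm
    have h' : m = 0 := by exact_mod_cast h
    rw [h']
    exact dvd_zero _
  refine IsUnit.of_mul_eq_one ⟨(m : ℚ)⁻¹, zl_aux_inv_mem ℓ hm⟩ ?_
  apply Subtype.ext
  simp [hm0]

omit [Fact ℓ.Prime] in
private theorem zl_aux_den_mul (x : ↥(GaloisRep.ratLocalizedAt ℓ)) :
    ((x.1.den : ℕ) : ↥(GaloisRep.ratLocalizedAt ℓ)) * x =
      ((x.1.num : ℤ) : ↥(GaloisRep.ratLocalizedAt ℓ)) := by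
  apply Subtype.ext
  simp

private theorem zl_aux_isUnit_den (x : ↥(GaloisRep.ratLocalizedAt ℓ)) :
    IsUnit ((x.1.den : ℕ) : ↥(GaloisRep.ratLocalizedAt ℓ)) :=
  zl_isUnit_natCast ℓ ((mem_zl_iff ℓ x.1).1 x.2)

omit [Fact ℓ.Prime] in
private theorem zl_aux_map_intCast {R : Type*} [Semiring R]
    (f g : ↥(GaloisRep.ratLocalizedAt ℓ) →+* R) (z : ℤ) :
    f (z : ↥(GaloisRep.ratLocalizedAt ℓ)) = g (z : ↥(GaloisRep.ratLocalizedAt ℓ)) := by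
  rcases Int.eq_nat_or_neg z with ⟨n, rfl | rfl⟩
  · simp
  · have hf : f ((-(n : ℤ) : ℤ) : ↥(GaloisRep.ratLocalizedAt ℓ)) +
        f (n : ↥(GaloisRep.ratLocalizedAt ℓ)) = 0 := by
      rw [← map_add]; simp
    have hg : g (n : ↥(GaloisRep.ratLocalizedAt ℓ)) +
        g ((-(n : ℤ) : ℤ) : ↥(GaloisRep.ratLocalizedAt ℓ)) = 0 := by
      rw [← map_add]; simp
    have hn : f (n : ↥(GaloisRep.ratLocalizedAt ℓ)) = g (n : ↥(GaloisRep.ratLocalizedAt ℓ)) := by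
      simp
    calc f ((-(n : ℤ) : ℤ) : ↥(GaloisRep.ratLocalizedAt ℓ))
        = f ((-(n : ℤ) : ℤ) : ↥(GaloisRep.ratLocalizedAt ℓ)) +
            (g (n : ↥(GaloisRep.ratLocalizedAt ℓ)) +
              g ((-(n : ℤ) : ℤ) : ↥(GaloisRep.ratLocalizedAt ℓ))) := by rw [hg, add_zero]
      _ = (f ((-(n : ℤ) : ℤ) : ↥(GaloisRep.ratLocalizedAt ℓ)) +
            f (n : ↥(GaloisRep.ratLocalizedAt ℓ))) +
              g ((-(n : ℤ) : ℤ) : ↥(GaloisRep.ratLocalizedAt ℓ)) := by rw [← hn, add_assoc]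
      _ = g ((-(n : ℤ) : ℤ) : ↥(GaloisRep.ratLocalizedAt ℓ)) := by rw [hf, zero_add]

/-- Ring homomorphisms out of `ℤ_(ℓ)` are unique. -/
theorem zl_ringHom_ext {R : Type*} [Semiring R] (f g : ↥(GaloisRep.ratLocalizedAt ℓ) →+* R) :
    f = g := by
  refine RingHom.ext fun x => ?_
  have hu := zl_aux_isUnit_den ℓ x
  have h1 := congrArg f (zl_aux_den_mul ℓ x)
  have h2 := congrArg g (zl_aux_den_mul ℓ x)
  rw [map_mul] at h1 h2
  have h3 : f ((x.1.den : ℕ) : ↥(GaloisRep.ratLocalizedAt ℓ)) =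
      g ((x.1.den : ℕ) : ↥(GaloisRep.ratLocalizedAt ℓ)) := by simp
  have h4 : f ((x.1.den : ℕ) : ↥(GaloisRep.ratLocalizedAt ℓ)) * f x =
      f ((x.1.den : ℕ) : ↥(GaloisRep.ratLocalizedAt ℓ)) * g x := by
    rw [h1, h3, h2, zl_aux_map_intCast ℓ f g]
  exact (hu.map f).mul_left_cancel h4

private theorem zl_aux_den_ne (x : ℚ) (hx : x ∈ GaloisRep.ratLocalizedAt ℓ) :
    ((x.den : ℕ) : ZMod ℓ) ≠ 0 := by
  rw [Ne, ZMod.natCast_eq_zero_iff]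
  exact (mem_zl_iff ℓ x).1 hx

/-- The residue map `ℤ_(ℓ) → 𝔽_ℓ`. -/
theorem exists_zlRes : Nonempty (↥(GaloisRep.ratLocalizedAt ℓ) →+* ZMod ℓ) := by
  refine ⟨{ toFun := fun x => ((x : ℚ) : ZMod ℓ), map_one' := ?_, map_mul' := ?_,
            map_zero' := ?_, map_add' := ?_ }⟩
  · simp
  · intro x y
    simpa using Rat.cast_mul_of_ne_zero (zl_aux_den_ne ℓ x.1 x.2) (zl_aux_den_ne ℓ y.1 y.2)
  · simp
  · intro x y
    simpa using Rat.cast_add_of_ne_zero (zl_aux_den_ne ℓ x.1 x.2) (zl_aux_den_ne ℓ y.1 y.2)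

/-- The residue map `ℤ_(ℓ) → 𝔽_ℓ`. -/
def zlRes : ↥(GaloisRep.ratLocalizedAt ℓ) →+* ZMod ℓ := (exists_zlRes ℓ).some

theorem zlRes_surjective : Function.Surjective (zlRes ℓ) := by
  have hp : ℓ.Prime := Fact.out
  have : NeZero ℓ := ⟨hp.ne_zero⟩
  intro a
  exact ⟨(a.val : ↥(GaloisRep.ratLocalizedAt ℓ)), by rw [map_natCast, ZMod.natCast_zmod_val]⟩

/-- The kernel of the residue map is `ℓ ℤ_(ℓ)`. -/
theorem zlRes_eq_zero_iff (x : ↥(GaloisRep.ratLocalizedAt ℓ)) :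
    zlRes ℓ x = 0 ↔ ∃ y : ↥(GaloisRep.ratLocalizedAt ℓ), x = (ℓ : ↥(GaloisRep.ratLocalizedAt ℓ)) * y := by
  constructor
  · intro h
    have h1 := congrArg (zlRes ℓ) (zl_aux_den_mul ℓ x)
    rw [map_mul, h, mul_zero, map_intCast] at h1
    have h2 : (ℓ : ℤ) ∣ x.1.num := (ZMod.intCast_zmod_eq_zero_iff_dvd _ _).1 h1.symm
    obtain ⟨k, hk⟩ := h2
    obtain ⟨u, hu'⟩ := zl_aux_isUnit_den ℓ x
    refine ⟨(↑u⁻¹ : ↥(GaloisRep.ratLocalizedAt ℓ)) * (k : ↥(GaloisRep.ratLocalizedAt ℓ)), ?_⟩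
    have h3 := zl_aux_den_mul ℓ x
    rw [← hu', hk] at h3
    calc x = ↑u⁻¹ * (↑u * x) := by rw [← mul_assoc, Units.inv_mul, one_mul]
      _ = ↑u⁻¹ * ((ℓ : ↥(GaloisRep.ratLocalizedAt ℓ)) * (k : ↥(GaloisRep.ratLocalizedAt ℓ))) := by
          rw [h3]; push_cast; rfl
      _ = _ := by ring
  · rintro ⟨y, rfl⟩
    rw [map_mul, map_natCast, ZMod.natCast_self, zero_mul]

private theorem zl_aux_not_isUnit : ¬ IsUnit (ℓ : ↥(GaloisRep.ratLocalizedAt ℓ)) := by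
  intro h
  have h' := h.map (zlRes ℓ)
  rw [map_natCast, ZMod.natCast_self] at h'
  exact not_isUnit_zero h'

omit [Fact ℓ.Prime] in
private theorem zl_aux_units_inv_coe (u : (↥(GaloisRep.ratLocalizedAt ℓ))ˣ) :
    (((u⁻¹ : (↥(GaloisRep.ratLocalizedAt ℓ))ˣ) : ↥(GaloisRep.ratLocalizedAt ℓ)) : ℚ) =
      ((u : ↥(GaloisRep.ratLocalizedAt ℓ)) : ℚ)⁻¹ := by
  have h : ((u : ↥(GaloisRep.ratLocalizedAt ℓ)) : ℚ) *
      (((u⁻¹ : (↥(GaloisRep.ratLocalizedAt ℓ))ˣ) : ↥(GaloisRep.ratLocalizedAt ℓ)) : ℚ) = 1 := by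
    have h0 : (u : ↥(GaloisRep.ratLocalizedAt ℓ)) *
        ((u⁻¹ : (↥(GaloisRep.ratLocalizedAt ℓ))ˣ) : ↥(GaloisRep.ratLocalizedAt ℓ)) = 1 :=
      Units.mul_inv u
    have h1 := congrArg Subtype.val h0
    rw [Subring.coe_mul, Subring.coe_one] at h1
    exact h1
  exact eq_inv_of_mul_eq_one_right h

/-- Every nonzero rational is `ℓ^m` times a unit of `ℤ_(ℓ)`. -/
theorem rat_eq_zpow_mul_unit (x : ℚ) (hx : x ≠ 0) :
    ∃ (m : ℤ) (v : (↥(GaloisRep.ratLocalizedAt ℓ))ˣ),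
      x = (ℓ : ℚ) ^ m * ((v : ↥(GaloisRep.ratLocalizedAt ℓ)) : ℚ) := by
  have hp : ℓ.Prime := Fact.out
  have hnum : x.num.natAbs ≠ 0 := by simpa using hx
  obtain ⟨a, n', hn', hna⟩ := Nat.exists_eq_pow_mul_and_not_dvd hnum ℓ hp.ne_one
  obtain ⟨b, d', hd', hdb⟩ := Nat.exists_eq_pow_mul_and_not_dvd x.den_nz ℓ hp.ne_one
  obtain ⟨u1, hu1⟩ := zl_isUnit_natCast ℓ hn'
  obtain ⟨u2, hu2⟩ := zl_isUnit_natCast ℓ hd'
  have hl : (ℓ : ℚ) ≠ 0 := by exact_mod_cast hp.ne_zero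
  have hd0 : (d' : ℚ) ≠ 0 := by
    intro h
    apply hd'
    have h' : d' = 0 := by exact_mod_cast h
    rw [h']
    exact dvd_zero _
  have hden : (x.den : ℚ) = (ℓ : ℚ) ^ b * d' := by exact_mod_cast congrArg (Nat.cast : ℕ → ℚ) hdb
  have hnabs : (x.num.natAbs : ℚ) = (ℓ : ℚ) ^ a * n' := by
    exact_mod_cast congrArg (Nat.cast : ℕ → ℚ) hna
  have key : (x.num.natAbs : ℚ) / x.den = (ℓ : ℚ) ^ ((a : ℤ) - (b : ℤ)) *
      (((u1 * u2⁻¹ : (↥(GaloisRep.ratLocalizedAt ℓ))ˣ) : ↥(GaloisRep.ratLocalizedAt ℓ)) : ℚ) := by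
    rw [Units.val_mul, Subring.coe_mul, zl_aux_units_inv_coe, hu1, hu2, Subring.coe_natCast,
      Subring.coe_natCast, hnabs, hden, zpow_sub₀ hl, zpow_natCast, zpow_natCast]
    field_simp
  have hxe : x = (x.num : ℚ) / (x.den : ℚ) := (Rat.num_div_den x).symm
  rcases Int.natAbs_eq x.num with h | h
  · refine ⟨(a : ℤ) - (b : ℤ), u1 * u2⁻¹, ?_⟩
    have h' : (x.num : ℚ) = (x.num.natAbs : ℚ) := by
      have := congrArg (Int.cast : ℤ → ℚ) h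
      rwa [Int.cast_natCast] at this
    rw [← key, ← h']
    exact hxe
  · refine ⟨(a : ℤ) - (b : ℤ), -(u1 * u2⁻¹), ?_⟩
    have h' : (x.num : ℚ) = -(x.num.natAbs : ℚ) := by
      have := congrArg (Int.cast : ℤ → ℚ) h
      rwa [Int.cast_neg, Int.cast_natCast] at this
    rw [Units.val_neg, Subring.coe_neg, mul_neg, ← key, ← neg_div, ← h']
    exact hxe

/-- Every nonzero element of `ℤ_(ℓ)` is `ℓ^k` times a unit. -/
theorem zl_eq_pow_mul_unit (x : ↥(GaloisRep.ratLocalizedAt ℓ)) (hx : x ≠ 0) :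
    ∃ (k : ℕ) (v : (↥(GaloisRep.ratLocalizedAt ℓ))ˣ),
      x = (ℓ : ↥(GaloisRep.ratLocalizedAt ℓ)) ^ k * v := by
  have hp : ℓ.Prime := Fact.out
  have hl : (ℓ : ℚ) ≠ 0 := by exact_mod_cast hp.ne_zero
  have hx' : (x : ℚ) ≠ 0 := fun h => hx (Subtype.ext h)
  obtain ⟨m, v, hv⟩ := rat_eq_zpow_mul_unit ℓ (x : ℚ) hx'
  rcases lt_or_ge m 0 with hm | hm
  · exfalso
    obtain ⟨k, rfl⟩ : ∃ k : ℕ, m = -((k : ℤ) + 1) := ⟨(-m - 1).toNat, by omega⟩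
    have h1 : x * (ℓ : ↥(GaloisRep.ratLocalizedAt ℓ)) ^ (k + 1) = v := by
      apply Subtype.ext
      push_cast
      rw [hv, zpow_neg]
      have : ((ℓ : ℚ) ^ ((k : ℤ) + 1)) = (ℓ : ℚ) ^ (k + 1) := by
        rw [← zpow_natCast]; push_cast; rfl
      rw [this]
      field_simp
    have hunit : IsUnit (ℓ : ↥(GaloisRep.ratLocalizedAt ℓ)) :=
      isUnit_of_dvd_unit ⟨x * (ℓ : ↥(GaloisRep.ratLocalizedAt ℓ)) ^ k, by rw [← h1]; ring⟩ v.isUnit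
    exact zl_aux_not_isUnit ℓ hunit
  · lift m to ℕ using hm
    refine ⟨m, v, Subtype.ext ?_⟩
    push_cast
    rw [hv, zpow_natCast]

/-- `ℓ` is a prime element of `ℤ_(ℓ)`. -/
theorem zl_prime : Prime (ℓ : ↥(GaloisRep.ratLocalizedAt ℓ)) := by
  have hp : ℓ.Prime := Fact.out
  have hdvd : ∀ a : ↥(GaloisRep.ratLocalizedAt ℓ),
      (ℓ : ↥(GaloisRep.ratLocalizedAt ℓ)) ∣ a ↔ zlRes ℓ a = 0 :=
    fun a => (zlRes_eq_zero_iff ℓ a).symm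
  refine ⟨?_, zl_aux_not_isUnit ℓ, ?_⟩
  · intro h
    have h' := congrArg Subtype.val h
    simp at h'
    exact hp.ne_zero h'
  · intro a b hab
    rw [hdvd] at hab
    rw [hdvd, hdvd]
    rw [map_mul] at hab
    exact mul_eq_zero.1 hab

/-- `ℤ_(ℓ)` is a principal ideal domain (hence a UFD, integrally closed, ...). -/
theorem zl_isPrincipalIdealRing : IsPrincipalIdealRing ↥(GaloisRep.ratLocalizedAt ℓ) := by
  have hR : IsDiscreteValuationRing.HasUnitMulPowIrreducibleFactorization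
      ↥(GaloisRep.ratLocalizedAt ℓ) :=
    ⟨(ℓ : ↥(GaloisRep.ratLocalizedAt ℓ)), (zl_prime ℓ).irreducible, fun {x} hx => by
      obtain ⟨k, v, hv⟩ := zl_eq_pow_mul_unit ℓ x hx
      exact ⟨k, v, hv.symm⟩⟩
  have := IsDiscreteValuationRing.ofHasUnitMulPowIrreducibleFactorization hR
  infer_instance

omit [Fact ℓ.Prime] in
private theorem zl_aux_isFractionRing : IsFractionRing ↥(GaloisRep.ratLocalizedAt ℓ) ℚ := by
  refine IsFractionRing.of_field _ ℚ fun z =>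
    ⟨(z.num : ↥(GaloisRep.ratLocalizedAt ℓ)), (z.den : ↥(GaloisRep.ratLocalizedAt ℓ)), ?_⟩
  simp [Rat.num_div_den]

/-- `ℤ_(ℓ)` is integrally closed in `ℚ`. -/
theorem zl_mem_of_isIntegral (x : ℚ) (hx : IsIntegral ↥(GaloisRep.ratLocalizedAt ℓ) x) :
    x ∈ GaloisRep.ratLocalizedAt ℓ := by
  have := zl_isPrincipalIdealRing ℓ
  have := zl_aux_isFractionRing ℓ
  obtain ⟨y, hy⟩ := IsIntegrallyClosed.isIntegral_iff.1 hx
  rw [← hy]
  exact y.2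

/-- `ℚ` is the fraction field of `ℤ_(ℓ)`. -/
theorem zl_isFractionRing : IsFractionRing ↥(GaloisRep.ratLocalizedAt ℓ) ℚ := by
  have _hp : ℓ.Prime := Fact.out
  exact zl_aux_isFractionRing ℓ

end

end Fermat.Agent.S28
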