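import Fermat.Agent.S28.Ana
import Fermat.Agent.S28.Zl
import Fermat.Agent.S28.ModL.WFacts
import Fermat.Agent.S28.ModL.Rational

/-!
# S28, Part B: the mod-`ℓ` primitive element package.  INTERFACE (statement frozen).

From the analytic package (`exists_analytic_package`, applied to `W` = integral closure of `ℤ_(ℓ)`
in `ℚ̄`): the eta-quotient `u ∈ ℤ((q))` is a root of a monic `Ψ ∈ ℤ_(ℓ)[Y][X]` (`Y = j`) of degree
`n`, the powers `1, ū, …, ū^{n-1}` of its reduction are linearly independent over `𝔽_ℓ(j̄)`, and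
every generator `j(q^d)` (`d ∣ N`) of the function field lies in `ℚ(j, u)`.
-/

set_option autoImplicit false

noncomputable section

namespace Fermat.Agent.S28

open ModularCurve

theorem exists_package (N : ℕ) [NeZero N] (ℓ : ℕ) [Fact ℓ.Prime] (hℓN : ¬ ℓ ∣ N) :
    ∃ (n : ℕ) (u : LaurentSeries ℤ) (Ψ : Polynomial (Polynomial ↥(GaloisRep.ratLocalizedAt ℓ))),
      Ψ.Monic ∧ Ψ.natDegree = n ∧
      -- `Ψ(j, u) = 0` in `ℚ((q))`
      ev2 (jqModC ℚ) (coeffMap (Int.castRingHom ℚ) u)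
        (Ψ.map (Polynomial.mapRingHom (GaloisRep.ratLocalizedAt ℓ).subtype)) = 0 ∧
      -- independence mod `ℓ`: no nonzero `c ∈ 𝔽_ℓ[Y][X]` of `X`-degree `< n` kills `(j̄, ū)`
      (∀ c : Polynomial (Polynomial (ZMod ℓ)), c.natDegree < n →
        ev2 (jqModC (ZMod ℓ)) (coeffMap (Int.castRingHom (ZMod ℓ)) u) c = 0 → c = 0) ∧
      -- the generators `j(q^d)` of the function field are in `ℚ(j, u)`
      (∀ (d : ℕ) [NeZero d], d ∣ N → ∃ c a : Polynomial (Polynomial ℚ),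
        ev2 (jqModC ℚ) (coeffMap (Int.castRingHom ℚ) u) c ≠ 0 ∧
        ev2 (jqModC ℚ) (coeffMap (Int.castRingHom ℚ) u) c * qExpand ℚ d (jqModC ℚ) =
          ev2 (jqModC ℚ) (coeffMap (Int.castRingHom ℚ) u) a) := by
  obtain ⟨W, κ, hκ, hchar, r, hWint, hWN, hWQ⟩ := exists_W ℓ N hℓN
  obtain ⟨u, ι, hι, i₀, G, Ψ, ha, hb, hc, hm, hd, hf⟩ := exists_analytic_package N W hWint hWN
  have h : AnaPkg N W u ι i₀ G Ψ := ⟨ha, hb, hc, hm, hd, hf⟩
  obtain ⟨Ψ₀, hmon, hdeg, hcompat, hzero⟩ := h.exists_rational ℓ hWQ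
  exact ⟨Fintype.card ι, u, Ψ₀, hmon, hdeg, hzero,
    fun c hc h0 => h.modl_indep ℓ r c hc h0,
    fun d _ hd => h.exists_gen _ hcompat d hd⟩

end Fermat.Agent.S28
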