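import Mathlib
import Fermat.Prelude.Def_ModularCurve_IgusaScheme

/-!
# S28, Part D: from the three affine charts to integrality of the fibre of the Igusa scheme

If `A_Fin ⊗ K` and `A_Inf ⊗ K` are domains and `A_Mid ⊗ K` is nontrivial, then the base change of
the Igusa scheme to `K` is integral.
-/

set_option autoImplicit false

noncomputable section

namespace Fermat.Agent.S28

open AlgebraicGeometry CategoryTheory CategoryTheory.Limits ModularCurve ModularCurve.IgusaScheme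
open scoped TensorProduct

/-- A space covered by two irreducible open subsets with nonempty intersection is irreducible. -/
theorem SchemeAux.irreducibleSpace_of_cover {T : Type*} [TopologicalSpace T] (U V : Set T)
    (hU : IsOpen U) (hV : IsOpen V) (hUV : ∀ x : T, x ∈ U ∨ x ∈ V)
    (hUi : IsIrreducible U) (hVi : IsIrreducible V) (h : (U ∩ V).Nonempty) :
    IrreducibleSpace T := by
  obtain ⟨x₀, hx₀U, hx₀V⟩ := h
  have key : ∀ A : Set T, IsOpen A → A.Nonempty → (U ∩ V ∩ A).Nonempty := by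
    intro A hA ⟨a, ha⟩
    rcases hUV a with haU | haV
    · obtain ⟨y, hyU, hyV, hyA⟩ := hUi.2 V A hV hA ⟨x₀, hx₀U, hx₀V⟩ ⟨a, haU, ha⟩
      exact ⟨y, ⟨hyU, hyV⟩, hyA⟩
    · obtain ⟨y, hyV, hyU, hyA⟩ := hVi.2 U A hU hA ⟨x₀, hx₀V, hx₀U⟩ ⟨a, haV, ha⟩
      exact ⟨y, ⟨hyU, hyV⟩, hyA⟩
  have hpre : PreirreducibleSpace T := by
    refine ⟨?_⟩
    intro A B hA hB ⟨a, _, ha⟩ ⟨b, _, hb⟩
    obtain ⟨y, ⟨hyU, _⟩, hyA⟩ := key A hA ⟨a, ha⟩
    obtain ⟨z, ⟨hzU, _⟩, hzB⟩ := key B hB ⟨b, hb⟩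
    obtain ⟨w, _, hwA, hwB⟩ := hUi.2 A B hA hB ⟨y, hyU, hyA⟩ ⟨z, hzU, hzB⟩
    exact ⟨w, Set.mem_univ _, hwA, hwB⟩
  exact { toPreirreducibleSpace := hpre, toNonempty := ⟨x₀⟩ }


section

variable (N : ℕ) [NeZero N] (ℓ : ℕ) [Fact ℓ.Prime]
  (K : Type) [Field K] [Algebra ↥(GaloisRep.ratLocalizedAt ℓ) K]

/-- The base change morphism `Spec K ⟶ Spec ℤ_(ℓ)`. -/
abbrev SchemeAux.gK : Spec (CommRingCat.of K) ⟶ Spec (CommRingCat.of ↥(GaloisRep.ratLocalizedAt ℓ)) :=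
  Spec.map (CommRingCat.ofHom (algebraMap ↥(GaloisRep.ratLocalizedAt ℓ) K))

/-- The two-chart open cover of the Igusa scheme. -/
def SchemeAux.cover : (ModularCurve.IgusaScheme N ℓ).OpenCover :=
  Scheme.Cover.mkOfCovers Bool (fun b => if b then XFin N ℓ else XInf N ℓ)
    (fun b => match b with
      | true => ιFin N ℓ
      | false => ιInf N ℓ)
    (fun x => by
      rcases mem_range_ιFin_or_mem_range_ιInf N ℓ x with ⟨y, hy⟩ | ⟨y, hy⟩
      · exact ⟨true, y, hy⟩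
      · exact ⟨false, y, hy⟩)
    (fun b => by
      cases b
      · exact isOpenImmersion_ιInf N ℓ
      · exact isOpenImmersion_ιFin N ℓ)


/-- If `A ⊗ K` is a domain, the base change of `Spec A` is integral. -/
theorem SchemeAux.isIntegral_pullback_Spec (A : Type) [CommRing A]
    [Algebra ↥(GaloisRep.ratLocalizedAt ℓ) A]
    (hA : IsDomain (A ⊗[↥(GaloisRep.ratLocalizedAt ℓ)] K)) :
    IsIntegral ↑(pullback (Spec.map (CommRingCat.ofHom (algebraMap ↥(GaloisRep.ratLocalizedAt ℓ) A)))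
      (SchemeAux.gK ℓ K)) := by
  haveI : IsDomain ↑(CommRingCat.of (A ⊗[↥(GaloisRep.ratLocalizedAt ℓ)] K)) := hA
  haveI : Nonempty ↑(pullback (Spec.map (CommRingCat.ofHom
      (algebraMap ↥(GaloisRep.ratLocalizedAt ℓ) A))) (SchemeAux.gK ℓ K)) :=
    ⟨(pullbackSpecIso ↥(GaloisRep.ratLocalizedAt ℓ) A K).inv.base (Classical.arbitrary _)⟩
  exact isIntegral_of_isOpenImmersion (pullbackSpecIso ↥(GaloisRep.ratLocalizedAt ℓ) A K).hom

/-- If `A ⊗ K` is nontrivial, the base change of `Spec A` is nonempty. -/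
theorem SchemeAux.nonempty_pullback_Spec (A : Type) [CommRing A]
    [Algebra ↥(GaloisRep.ratLocalizedAt ℓ) A]
    (hA : Nontrivial (A ⊗[↥(GaloisRep.ratLocalizedAt ℓ)] K)) :
    Nonempty ↑(pullback (Spec.map (CommRingCat.ofHom (algebraMap ↥(GaloisRep.ratLocalizedAt ℓ) A)))
      (SchemeAux.gK ℓ K)) := by
  haveI : Nontrivial ↑(CommRingCat.of (A ⊗[↥(GaloisRep.ratLocalizedAt ℓ)] K)) := hA
  exact ⟨(pullbackSpecIso ↥(GaloisRep.ratLocalizedAt ℓ) A K).inv.base (Classical.arbitrary _)⟩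


set_option maxHeartbeats 4000000 in
set_option synthInstance.maxHeartbeats 400000 in
/-- **Part D.** If `A_Fin ⊗ K` and `A_Inf ⊗ K` are domains and `A_Mid ⊗ K` is nontrivial, then the
base change of the Igusa scheme to `K` is integral. -/
theorem isIntegral_pullback_of_charts
    (hFin : IsDomain (↥(chartAlgFin N ℓ) ⊗[↥(GaloisRep.ratLocalizedAt ℓ)] K))
    (hInf : IsDomain (↥(chartAlgInf N ℓ) ⊗[↥(GaloisRep.ratLocalizedAt ℓ)] K))
    (hMid : Nontrivial (↥(chartAlgMid N ℓ) ⊗[↥(GaloisRep.ratLocalizedAt ℓ)] K)) :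
    IsIntegral ↑(pullback (igusaTo N ℓ)
      (Spec.map (CommRingCat.ofHom (algebraMap ↥(GaloisRep.ratLocalizedAt ℓ) K)))) := by
  -- the open cover of the pullback
  let 𝒱 := Scheme.Pullback.openCoverOfLeft (SchemeAux.cover N ℓ) (igusaTo N ℓ) (SchemeAux.gK ℓ K)
  -- the two charts are integral
  have hT : IsIntegral ↑(pullback (ιFin N ℓ ≫ igusaTo N ℓ) (SchemeAux.gK ℓ K)) := by
    rw [ιFin_igusaTo]
    exact SchemeAux.isIntegral_pullback_Spec ℓ K _ hFin
  have hF : IsIntegral ↑(pullback (ιInf N ℓ ≫ igusaTo N ℓ) (SchemeAux.gK ℓ K)) := by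
    rw [ιInf_igusaTo]
    exact SchemeAux.isIntegral_pullback_Spec ℓ K _ hInf
  have hint : ∀ b : Bool, IsIntegral (𝒱.X b) := by
    intro b
    cases b
    · exact hF
    · exact hT
  -- the middle chart
  have hcomp : fFin N ℓ ≫ ιFin N ℓ ≫ igusaTo N ℓ =
      Spec.map (CommRingCat.ofHom (algebraMap ↥(GaloisRep.ratLocalizedAt ℓ) ↥(chartAlgMid N ℓ))) := by
    rw [ιFin_igusaTo, ← Spec.map_comp, ← CommRingCat.ofHom_comp]
    congr 2
  have hM : Nonempty ↑(pullback (fFin N ℓ ≫ ιFin N ℓ ≫ igusaTo N ℓ) (SchemeAux.gK ℓ K)) := by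
    rw [hcomp]
    exact SchemeAux.nonempty_pullback_Spec ℓ K _ hMid
  obtain ⟨y⟩ := hM
  let m₁ : pullback (fFin N ℓ ≫ ιFin N ℓ ≫ igusaTo N ℓ) (SchemeAux.gK ℓ K) ⟶
      pullback (ιFin N ℓ ≫ igusaTo N ℓ) (SchemeAux.gK ℓ K) :=
    pullback.map _ _ _ _ (fFin N ℓ) (𝟙 _) (𝟙 _) (by simp) (by simp)
  let m₂ : pullback (fFin N ℓ ≫ ιFin N ℓ ≫ igusaTo N ℓ) (SchemeAux.gK ℓ K) ⟶
      pullback (ιInf N ℓ ≫ igusaTo N ℓ) (SchemeAux.gK ℓ K) :=
    pullback.map _ _ _ _ (fInf N ℓ) (𝟙 _) (𝟙 _)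
      (by rw [Category.comp_id, ← Category.assoc, glue_condition, Category.assoc]) (by simp)
  have hm : m₁ ≫ 𝒱.f true = m₂ ≫ 𝒱.f false := by
    have e1 : 𝒱.f true = pullback.map (ιFin N ℓ ≫ igusaTo N ℓ) (SchemeAux.gK ℓ K) (igusaTo N ℓ)
        (SchemeAux.gK ℓ K) (ιFin N ℓ) (𝟙 _) (𝟙 _) (by simp) (by simp) := rfl
    have e2 : 𝒱.f false = pullback.map (ιInf N ℓ ≫ igusaTo N ℓ) (SchemeAux.gK ℓ K) (igusaTo N ℓ)
        (SchemeAux.gK ℓ K) (ιInf N ℓ) (𝟙 _) (𝟙 _) (by simp) (by simp) := rfl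
    rw [e1, e2]
    apply pullback.hom_ext
    · simp only [m₁, m₂, Category.assoc, pullback.lift_fst, pullback.lift_fst_assoc]
      rw [glue_condition]
    · simp only [m₁, m₂, Category.assoc, pullback.lift_snd, pullback.lift_snd_assoc]
  -- reducedness
  haveI : ∀ i, IsReduced (𝒱.X i) := fun i => by
    haveI := hint i
    infer_instance
  haveI : IsReduced ↑(pullback (igusaTo N ℓ) (SchemeAux.gK ℓ K)) := IsReduced.of_openCover _ 𝒱
  -- irreducibility
  haveI : IrreducibleSpace ↑(pullback (igusaTo N ℓ) (SchemeAux.gK ℓ K)) := by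
    refine SchemeAux.irreducibleSpace_of_cover (Set.range (𝒱.f true).base)
      (Set.range (𝒱.f false).base) (𝒱.map_prop true).isOpen_range
      (𝒱.map_prop false).isOpen_range ?_ ?_ ?_ ?_
    · intro x
      obtain ⟨b, z, hz⟩ := 𝒱.exists_eq x
      cases b
      · exact Or.inr ⟨z, hz⟩
      · exact Or.inl ⟨z, hz⟩
    · haveI := hint true
      rw [← Set.image_univ]
      exact (IrreducibleSpace.isIrreducible_univ _).image _ (𝒱.f true).base.hom.continuous.continuousOn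
    · haveI := hint false
      rw [← Set.image_univ]
      exact (IrreducibleSpace.isIrreducible_univ _).image _ (𝒱.f false).base.hom.continuous.continuousOn
    · refine ⟨(m₁ ≫ 𝒱.f true).base y, ⟨m₁.base y, rfl⟩, ?_⟩
      rw [hm]
      exact ⟨m₂.base y, rfl⟩
  exact isIntegral_of_irreducibleSpace_of_isReduced _

end

end Fermat.Agent.S28
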